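import Fermat.Agent.S30.H349.AdicModule
import Fermat.Agent.S30.H990.Interface

/-!
# S30 (helper349): adapter from the Tate eigenmodule to helper990's `AdicEigenModule`

`nonempty_adicEigenModule_of_tower`: for an eigencharacter `χ : T^S(N) → O`, the Prelude
Eichler–Shimura predicates on a `HeckeAlg`-Galois module `J` (think `JZero N`), finiteness of
`J[p]`, smoothness and occurrence of `χ` modulo every power of `p` give
`Nonempty (H990.AdicEigenModule p N S O χ)`, the input of the S30 top glue.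
-/

set_option autoImplicit false

noncomputable section

namespace Fermat.Agent.S30.H349

open TensorProduct IsLocalRing

variable {O : Type} [CommRing O] [IsDomain O] [IsDiscreteValuationRing O] [CharZero O]
  [IsAdicComplete (maximalIdeal O) O] [Finite (ResidueField O)]
variable {J : Type} [AddCommGroup J] [Module ModularCurve.HeckeAlg J] [DistribMulAction GQ J]
  [SMulCommClass GQ ModularCurve.HeckeAlg J]

theorem nonempty_adicEigenModule_of_tower (p : ℕ) (hp : p.Prime) (N : ℕ) [NeZero N]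
    (S : Finset ℕ) (hpS : p ∈ S) (hpO : (p : O) ∈ maximalIdeal O)
    (χ : CuspForm.heckeAlgebra N 2 (↑S : Set ℕ) →+* O)
    (hunr : ModularCurve.UnramifiedOutside (K := ℚ) (L := AlgebraicClosure ℚ) N p J)
    (hfrob : ModularCurve.FrobeniusQuadratic (K := ℚ) (L := AlgebraicClosure ℚ) N p J)
    (hfin : {x : J | p • x = 0}.Finite)
    (hsm : ∀ x : J, (∃ n : ℕ, p ^ n • x = 0) →
      ∃ L : IntermediateField ℚ (AlgebraicClosure ℚ), FiniteDimensional ℚ L ∧
        ∀ σ : GQ, (∀ y ∈ L, σ y = y) → σ • x = x)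
    (hocc : ∀ n : ℕ, ∃ w : O ⊗[ℤ] J, (p : O) ^ (n + 1) • w = 0 ∧ (p : O) ^ n • w ≠ 0 ∧
      ∀ (ℓ : ℕ) (hℓ : ℓ.Prime) (hℓN : ¬ ℓ ∣ N) (hℓS : ℓ ∉ (↑S : Set ℕ)),
        bcH O (heckeHom J ⟨ℓ, hℓ⟩) w = χ (CuspForm.heckeAlgebra.T hℓ hℓN hℓS) • w) :
    Nonempty (Fermat.Agent.S30.H990.AdicEigenModule p N S O χ) := by
  obtain ⟨M, i1, i2, i3, i4, ρ, hnt, hcont, hone, hquad⟩ :=
    exists_adic_eigenmodule (O := O) (J := J) (p := p)
      (ι := {ℓ : Nat.Primes // ¬ (ℓ : ℕ) ∣ N ∧ (ℓ : ℕ) ∉ (↑S : Set ℕ)})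
      (T := fun i => heckeHom J i.1) hp.ne_zero hpO
      (fun i => χ (CuspForm.heckeAlgebra.T i.1.2 i.2.1 i.2.2))
      (fun i g x => (smul_comm g (ModularCurve.heckeGen i.1) x).symm) hfin hsm
      (fun n => by
        obtain ⟨w, h1, h2, h3⟩ := hocc n
        exact ⟨w, h1, h2, fun i => h3 i.1.1 i.1.2 i.2.1 i.2.2⟩)
  have hdvd : ∀ q : ℕ, q.Prime → ¬ q ∣ N → q ≠ p → ¬ q ∣ N * p := by
    intro q hq hqN hqp h
    rcases (Nat.Prime.dvd_mul hq).1 h with h | h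
    · exact hqN h
    · exact hqp ((Nat.prime_dvd_prime_iff_eq hq hp).1 h)
  exact ⟨{
    M := M
    ρ := ρ
    cont := hcont
    unram := fun q hq hqN hqp P hP σ hσ =>
      hone σ fun x hx => hunr q hq (hdvd q hq hqN hqp) P hP σ hσ x hx
    frob := fun ℓ hℓ hℓN hℓS A hA σ hσ =>
      hquad σ ⟨⟨ℓ, hℓ⟩, hℓN, hℓS⟩ ℓ fun x hx =>
        hfrob ℓ hℓ (hdvd ℓ hℓ hℓN (fun h => hℓS (h ▸ hpS))) A hA σ hσ x hx }⟩

end Fermat.Agent.S30.H349
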