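import Fermat.Agent.S30.H349.Tate
import Fermat.Prelude.Def_HeckeGalois_EichlerShimura

/-!
# S30, p-adic module layer (helper349): the adic eigenmodule of a Hecke–Galois module

Abstract input: an abelian group `J` with an action of `G_ℚ` and commuting additive
endomorphisms `T i`, such that
* (FIN)    `J[p]` is finite,
* (SMOOTH) every `p`-power torsion element is fixed by an open subgroup,
* (OCC)    for every `n` the eigensystem `a` occurs in `O ⊗ J` with exact order `pⁿ⁺¹`.

Output (`exists_adic_eigenmodule`): a nonzero finite free `O`-module with an adically continuous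
action `ρ` of `G_ℚ` such that
* every `σ` fixing the `p`-power torsion of `J` has `ρ σ = 1`,
* every relation `σ² - T_i σ + ℓ = 0` on the `p`-power torsion gives `ρ(σ)² - a_i ρ(σ) + ℓ = 0`.

`hasAdicFrobModule_of_eichlerShimura` specialises this to the Prelude predicates
`ModularCurve.UnramifiedOutside` / `ModularCurve.FrobeniusQuadratic` (the output of S37).
-/

set_option autoImplicit false

noncomputable section

namespace Fermat.Agent.S30.H349

open TensorProduct IsLocalRing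

/-- The absolute Galois group of `ℚ`. -/
abbrev GQ : Type := AlgebraicClosure ℚ ≃ₐ[ℚ] AlgebraicClosure ℚ

section Abstract

variable {O : Type} [CommRing O] [IsDomain O] [IsDiscreteValuationRing O] [CharZero O]
  [IsAdicComplete (maximalIdeal O) O] [Finite (ResidueField O)]
variable {J : Type} [AddCommGroup J] [DistribMulAction GQ J]
variable {p : ℕ} {ι : Type*} {T : ι → J →+ J}

omit [IsAdicComplete (maximalIdeal O) O] [Finite (ResidueField O)] in
/-- Adic continuity of the Tate eigenmodule. -/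
lemma tateRho_isAdicContinuous (hpO : (p : O) ∈ maximalIdeal O) (a : ι → O)
    (hTG : ∀ i (g : GQ) x, T i (g • x) = g • T i x) (hJ : Finite (torsJ J p))
    (hsm : ∀ x : J, (∃ n : ℕ, p ^ n • x = 0) →
      ∃ L : IntermediateField ℚ (AlgebraicClosure ℚ), FiniteDimensional ℚ L ∧
        ∀ σ : GQ, (∀ y ∈ L, σ y = y) → σ • x = x) :
    GaloisActionIsAdicContinuous O (tateRho O p a hTG) := by
  intro n
  haveI := finite_torsJ_pow J p hJ n
  have h : ∀ x : torsJ J (p ^ n),
      ∃ L : IntermediateField ℚ (AlgebraicClosure ℚ), FiniteDimensional ℚ L ∧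
        ∀ σ : GQ, (∀ y ∈ L, σ y = y) → σ • (x : J) = x :=
    fun x => hsm x ⟨n, mem_torsJ.1 x.2⟩
  choose L hLfin hL using h
  haveI := hLfin
  refine ⟨⨆ x, L x, IntermediateField.finiteDimensional_iSup_of_finite, fun σ hσ v => ?_⟩
  refine tateRho_sub_mem hpO hTG n σ (fun x hx => ?_) v
  exact hL ⟨x, mem_torsJ.2 hx⟩ σ fun y hy => hσ y (le_iSup L ⟨x, mem_torsJ.2 hx⟩ hy)

/-- **Abstract adic eigenmodule.** -/
theorem exists_adic_eigenmodule (hp0 : p ≠ 0) (hpO : (p : O) ∈ maximalIdeal O) (a : ι → O)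
    (hTG : ∀ i (g : GQ) x, T i (g • x) = g • T i x)
    (hfin : {x : J | p • x = 0}.Finite)
    (hsm : ∀ x : J, (∃ n : ℕ, p ^ n • x = 0) →
      ∃ L : IntermediateField ℚ (AlgebraicClosure ℚ), FiniteDimensional ℚ L ∧
        ∀ σ : GQ, (∀ y ∈ L, σ y = y) → σ • x = x)
    (hocc : ∀ n : ℕ, ∃ w : O ⊗[ℤ] J, (p : O) ^ (n + 1) • w = 0 ∧ (p : O) ^ n • w ≠ 0 ∧
      ∀ i, bcH O (T i) w = a i • w) :
    ∃ (M : Type) (_ : AddCommGroup M) (_ : Module O M) (_ : Module.Free O M)
      (_ : Module.Finite O M) (ρ : GQ →* Module.End O M),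
      Nontrivial M ∧ GaloisActionIsAdicContinuous O ρ ∧
      (∀ σ : GQ, (∀ x : J, (∃ n : ℕ, p ^ n • x = 0) → σ • x = x) → ρ σ = 1) ∧
      (∀ (σ : GQ) (i : ι) (ℓ : ℕ),
        (∀ x : J, (∃ n : ℕ, p ^ n • x = 0) → σ • σ • x - T i (σ • x) + ℓ • x = 0) →
          ρ σ * ρ σ - a i • ρ σ + (ℓ : O) • (1 : Module.End O M) = 0) := by
  have hJ : Finite (torsJ J p) := by
    have : (torsJ J p : Set J) = {x : J | p • x = 0} := by
      ext x; exact mem_torsJ
    exact (this ▸ hfin : (torsJ J p : Set J).Finite).to_subtype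
  exact ⟨tateEigen O p T a, inferInstance, inferInstance, tateEigen_free hp0 hpO hJ,
    tateEigen_finite hp0 hpO hJ, tateRho O p a hTG, tateEigen_nontrivial hp0 hJ hocc,
    tateRho_isAdicContinuous hpO a hTG hJ hsm,
    fun σ hσ => tateRho_eq_one hTG σ hσ,
    fun σ i ℓ h => tateRho_quadratic hTG σ i ℓ h⟩

end Abstract

section EichlerShimura

/-- Output interface of the `p`-adic module layer: a nonzero finite free `O`-module with an
adically continuous action of `G_ℚ`, unramified outside `Np`, on which every Frobenius at a good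
prime `ℓ ∤ Np` satisfies `σ² - a_ℓ σ + ℓ = 0`. -/
def HasAdicFrobModule (O : Type) [CommRing O] [IsLocalRing O] (Np : ℕ) (good : ℕ → Prop)
    (a : ℕ → O) : Prop :=
  ∃ (M : Type) (_ : AddCommGroup M) (_ : Module O M) (_ : Module.Free O M)
    (_ : Module.Finite O M) (ρ : GQ →* Module.End O M),
    Nontrivial M ∧ GaloisActionIsAdicContinuous O ρ ∧
    (∀ q : ℕ, q.Prime → ¬ q ∣ Np → ∀ A : ValuationSubring (AlgebraicClosure ℚ),
      A.LiesOverPrime q → ∀ σ ∈ A.inertiaSubgroupIn ℚ, ρ σ = 1) ∧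
    (∀ ℓ : ℕ, ℓ.Prime → ¬ ℓ ∣ Np → good ℓ → ∀ A : ValuationSubring (AlgebraicClosure ℚ),
      A.LiesOverPrime ℓ → ∀ σ : GQ, A.IsFrobeniusAt σ ℓ →
        ρ σ * ρ σ - a ℓ • ρ σ + (ℓ : O) • (1 : Module.End O M) = 0)

variable {O : Type} [CommRing O] [IsDomain O] [IsDiscreteValuationRing O] [CharZero O]
  [IsAdicComplete (maximalIdeal O) O] [Finite (ResidueField O)]
variable {J : Type} [AddCommGroup J] [Module ModularCurve.HeckeAlg J] [DistribMulAction GQ J]
  [SMulCommClass GQ ModularCurve.HeckeAlg J]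

/-- The Hecke operator `T_ℓ` of a `HeckeAlg`-module as an additive endomorphism. -/
abbrev heckeHom (J : Type) [AddCommGroup J] [Module ModularCurve.HeckeAlg J] (ℓ : Nat.Primes) :
    J →+ J :=
  DistribSMul.toAddMonoidHom J (ModularCurve.heckeGen ℓ)

/-- **The `p`-adic module layer of S30, from the Eichler–Shimura relations** (the output of S37),
finiteness of `J[p]`, smoothness of the Galois action on torsion and occurrence of the
eigensystem modulo every power of `p`. -/
theorem hasAdicFrobModule_of_eichlerShimura (N : ℕ) {p : ℕ} (hp0 : p ≠ 0)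
    (hpO : (p : O) ∈ maximalIdeal O)
    (hunr : ModularCurve.UnramifiedOutside (K := ℚ) (L := AlgebraicClosure ℚ) N p J)
    (hfrob : ModularCurve.FrobeniusQuadratic (K := ℚ) (L := AlgebraicClosure ℚ) N p J)
    (hfin : {x : J | p • x = 0}.Finite)
    (hsm : ∀ x : J, (∃ n : ℕ, p ^ n • x = 0) →
      ∃ L : IntermediateField ℚ (AlgebraicClosure ℚ), FiniteDimensional ℚ L ∧
        ∀ σ : GQ, (∀ y ∈ L, σ y = y) → σ • x = x)
    (good : ℕ → Prop) (a : ℕ → O)
    (hocc : ∀ n : ℕ, ∃ w : O ⊗[ℤ] J, (p : O) ^ (n + 1) • w = 0 ∧ (p : O) ^ n • w ≠ 0 ∧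
      ∀ ℓ : Nat.Primes, good ℓ → bcH O (heckeHom J ℓ) w = a ℓ • w) :
    HasAdicFrobModule O (N * p) good a := by
  obtain ⟨M, i1, i2, i3, i4, ρ, hnt, hcont, hone, hquad⟩ :=
    exists_adic_eigenmodule (O := O) (J := J) (p := p) (ι := {ℓ : Nat.Primes // good ℓ})
      (T := fun i => heckeHom J i.1) hp0 hpO (fun i => a i.1)
      (fun i g x => (smul_comm g (ModularCurve.heckeGen i.1) x).symm) hfin hsm
      (fun n => by
        obtain ⟨w, h1, h2, h3⟩ := hocc n
        exact ⟨w, h1, h2, fun i => h3 i.1 i.2⟩)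
  refine ⟨M, i1, i2, i3, i4, ρ, hnt, hcont, ?_, ?_⟩
  · intro q hq hqN A hA σ hσ
    exact hone σ fun x hx => hunr q hq hqN A hA σ hσ x hx
  · intro ℓ hℓ hℓN hgood A hA σ hσ
    exact hquad σ ⟨⟨ℓ, hℓ⟩, hgood⟩ ℓ fun x hx => hfrob ℓ hℓ hℓN A hA σ hσ x hx

end EichlerShimura

end Fermat.Agent.S30.H349
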