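import Fermat.Agent.S30.H349.TateBasic
import Fermat.Prelude.Def_GaloisRep_Adic
import Fermat.Prelude.Sol.S_IsAdicComplete_of_module_finite

/-!
# S30, p-adic module layer (helper349): abstract Tate-module construction, part 2

For an abelian group `J` with commuting additive endomorphisms `T i` and eigenvalues `a i : O`
(`O` a complete DVR of characteristic `0` over `p`), `tateEigen O p T a` is the `O`-module of
sequences `x n ∈ O ⊗ J` with `x 0 = 0`, `p • x (n+1) = x n`, `T i (x n) = a i • x n`,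
i.e. the `a`-eigenspace of `T_p J ⊗ O`.
-/

set_option autoImplicit false

noncomputable section

namespace Fermat.Agent.S30.H349

open TensorProduct IsLocalRing

section Def

variable (O : Type*) [CommRing O] {J : Type*} [AddCommGroup J] (p : ℕ)
variable {ι : Type*} (T : ι → J →+ J) (a : ι → O)

/-- The `a`-eigenpart of the `O`-adic Tate module of `J`. -/
def tateEigen : Submodule O (ℕ → O ⊗[ℤ] J) where
  carrier := {x | x 0 = 0 ∧ (∀ n, (p : O) • x (n + 1) = x n) ∧
    ∀ n i, bcH O (T i) (x n) = a i • x n}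
  zero_mem' := ⟨rfl, fun n => by simp, fun n i => by simp⟩
  add_mem' := by
    rintro x y ⟨hx0, hx1, hx2⟩ ⟨hy0, hy1, hy2⟩
    refine ⟨by simp [hx0, hy0], fun n => ?_, fun n i => ?_⟩
    · simp only [Pi.add_apply, smul_add, hx1, hy1]
    · simp only [Pi.add_apply, map_add, smul_add, hx2, hy2]
  smul_mem' := by
    rintro c x ⟨hx0, hx1, hx2⟩
    refine ⟨by simp [hx0], fun n => ?_, fun n i => ?_⟩
    · simp only [Pi.smul_apply, smul_comm (p : O) c, hx1]
    · simp only [Pi.smul_apply, map_smul, hx2, smul_comm (a i) c]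

variable {O p T a}

lemma mem_tateEigen {x : ℕ → O ⊗[ℤ] J} : x ∈ tateEigen O p T a ↔
    x 0 = 0 ∧ (∀ n, (p : O) • x (n + 1) = x n) ∧ ∀ n i, bcH O (T i) (x n) = a i • x n :=
  Iff.rfl

lemma tateEigen_pow_smul {x : ℕ → O ⊗[ℤ] J} (hx : x ∈ tateEigen O p T a) (n k : ℕ) :
    (p : O) ^ k • x (n + k) = x n := by
  induction k with
  | zero => simp
  | succ k ih =>
    rw [pow_succ, mul_smul, ← add_assoc, hx.2.1, ih]

lemma tateEigen_pow_smul_self {x : ℕ → O ⊗[ℤ] J} (hx : x ∈ tateEigen O p T a) (n : ℕ) :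
    (p : O) ^ n • x n = 0 := by
  have := tateEigen_pow_smul hx 0 n
  rw [zero_add] at this
  rw [this, hx.1]

lemma shift_mem_tateEigen {x : ℕ → O ⊗[ℤ] J} (hx : x ∈ tateEigen O p T a) (h1 : x 1 = 0) :
    (fun n => x (n + 1)) ∈ tateEigen O p T a :=
  ⟨h1, fun n => hx.2.1 (n + 1), fun n i => hx.2.2 (n + 1) i⟩

lemma smul_shift_eq {x : ℕ → O ⊗[ℤ] J} (hx : x ∈ tateEigen O p T a) :
    (p : O) • (fun n => x (n + 1)) = x := by
  funext n
  exact hx.2.1 n

/-- Elements whose `n`-th component vanishes are divisible by `pⁿ`. -/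
lemma exists_eq_pow_smul_of_apply_eq_zero (n : ℕ) :
    ∀ {x : ℕ → O ⊗[ℤ] J}, x ∈ tateEigen O p T a → x n = 0 →
      ∃ y ∈ tateEigen O p T a, x = (p : O) ^ n • y := by
  induction n with
  | zero => exact fun {x} hx _ => ⟨x, hx, by simp⟩
  | succ n ih =>
    intro x hx hxn
    have h1 : x 1 = 0 := by
      have := tateEigen_pow_smul hx 1 n
      rw [add_comm 1 n, hxn, smul_zero] at this
      exact this.symm
    obtain ⟨y, hy, hxy⟩ := ih (shift_mem_tateEigen hx h1) hxn
    refine ⟨y, hy, ?_⟩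
    rw [pow_succ', mul_smul, ← hxy, smul_shift_eq hx]

lemma apply_eq_zero_of_eq_pow_smul {n : ℕ} {x y : ℕ → O ⊗[ℤ] J}
    (hy : y ∈ tateEigen O p T a) (hxy : x = (p : O) ^ n • y) : x n = 0 := by
  rw [hxy, Pi.smul_apply, tateEigen_pow_smul_self hy]

end Def

section Action

variable (O : Type*) [CommRing O] {J : Type*} [AddCommGroup J] (p : ℕ)
variable {ι : Type*} (T : ι → J →+ J) (a : ι → O)
variable {G : Type*} [Group G] [DistribMulAction G J]

/-- The action of `g` on `J` as an additive endomorphism. -/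
abbrev gactH (g : G) : J →+ J := DistribSMul.toAddMonoidHom J g

lemma bcH_gactH_one (w : O ⊗[ℤ] J) : bcH O (gactH (1 : G)) w = w := by
  have : gactH (1 : G) = AddMonoidHom.id J := by ext x; simp
  rw [this, bcH_id]

lemma bcH_gactH_mul (g h : G) (w : O ⊗[ℤ] J) :
    bcH O (gactH (g * h)) w = bcH O (gactH g) (bcH O (gactH h) w) := by
  have : gactH (g * h) = (gactH g).comp (gactH h : J →+ J) := by ext x; simp [mul_smul]
  rw [this, bcH_comp]

variable {T}

lemma bcH_comm_of_comm (hTG : ∀ i (g : G) x, T i (g • x) = g • T i x) (i : ι) (g : G)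
    (w : O ⊗[ℤ] J) : bcH O (T i) (bcH O (gactH g) w) = bcH O (gactH g) (bcH O (T i) w) := by
  rw [← bcH_comp, ← bcH_comp]
  congr 2
  ext x
  exact hTG i g x

variable {O p a}

lemma gact_mem_tateEigen (hTG : ∀ i (g : G) x, T i (g • x) = g • T i x) (g : G)
    {x : ℕ → O ⊗[ℤ] J} (hx : x ∈ tateEigen O p T a) :
    (fun n => bcH O (gactH g) (x n)) ∈ tateEigen O p T a := by
  refine ⟨by simp [hx.1], fun n => ?_, fun n i => ?_⟩
  · rw [← map_smul, hx.2.1]
  · rw [bcH_comm_of_comm O hTG, hx.2.2, map_smul]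

variable (O p a)

/-- The action of `G` on the Tate eigenmodule. -/
def tateRho (hTG : ∀ i (g : G) x, T i (g • x) = g • T i x) :
    G →* Module.End O (tateEigen O p T a) where
  toFun g :=
    { toFun := fun x => ⟨fun n => bcH O (gactH g) (x.1 n), gact_mem_tateEigen hTG g x.2⟩
      map_add' := fun x y => Subtype.ext (funext fun n => by simp)
      map_smul' := fun c x => Subtype.ext (funext fun n => by simp) }
  map_one' := by
    refine LinearMap.ext fun x => Subtype.ext (funext fun n => ?_)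
    exact bcH_gactH_one O _
  map_mul' g h := by
    refine LinearMap.ext fun x => Subtype.ext (funext fun n => ?_)
    exact bcH_gactH_mul O g h _

variable {O p a}

@[simp] lemma tateRho_apply (hTG : ∀ i (g : G) x, T i (g • x) = g • T i x) (g : G)
    (x : tateEigen O p T a) (n : ℕ) :
    ((tateRho O p a hTG g x : tateEigen O p T a) : ℕ → O ⊗[ℤ] J) n
      = bcH O (gactH g) ((x : ℕ → O ⊗[ℤ] J) n) := rfl

end Action

section DVR

variable (O : Type*) [CommRing O] [IsDomain O] [IsDiscreteValuationRing O] [CharZero O]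

lemma exists_span_natCast_eq_pow {p : ℕ} (hp0 : p ≠ 0) :
    ∃ e : ℕ, Ideal.span {(p : O)} = maximalIdeal O ^ e := by
  obtain ⟨ϖ, hϖ⟩ := IsDiscreteValuationRing.exists_irreducible O
  have hne : Ideal.span {(p : O)} ≠ ⊥ := by
    rw [Ne, Ideal.span_singleton_eq_bot]
    exact_mod_cast hp0
  obtain ⟨e, he⟩ := IsDiscreteValuationRing.ideal_eq_span_pow_irreducible hne hϖ
  refine ⟨e, ?_⟩
  rw [he, hϖ.maximalIdeal_eq, Ideal.span_singleton_pow]

lemma finite_quotient_span_natCast_pow [Finite (ResidueField O)] {p : ℕ} (hp0 : p ≠ 0) (n : ℕ) :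
    Finite (O ⧸ Ideal.span {((p ^ n : ℕ) : O)}) := by
  obtain ⟨e, he⟩ := exists_span_natCast_eq_pow O hp0
  have h1 : Ideal.span {((p ^ n : ℕ) : O)} = maximalIdeal O ^ (e * n) := by
    rw [Nat.cast_pow, ← Ideal.span_singleton_pow, he, pow_mul]
  rw [h1]
  haveI : Finite (O ⧸ maximalIdeal O) := inferInstanceAs (Finite (ResidueField O))
  exact Ideal.finite_quotient_pow (IsNoetherian.noetherian _) _

end DVR

section Structure

variable {O : Type*} [CommRing O] [IsDomain O] [IsDiscreteValuationRing O] [CharZero O]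
variable {J : Type*} [AddCommGroup J] {p : ℕ} {ι : Type*} {T : ι → J →+ J} {a : ι → O}

omit [CharZero O] in
/-- The Tate eigenmodule is torsion-free. -/
lemma tateEigen_isTorsionFree (hpO : (p : O) ∈ maximalIdeal O) :
    Module.IsTorsionFree O (tateEigen O p T a) := by
  refine ⟨fun r hr x y hxy => ?_⟩
  have hr0 : r ≠ 0 := hr.ne_zero
  -- `p ^ k ∈ (r)` for some `k`
  obtain ⟨ϖ, hϖ⟩ := IsDiscreteValuationRing.exists_irreducible O
  have hne : Ideal.span {r} ≠ ⊥ := by
    rwa [Ne, Ideal.span_singleton_eq_bot]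
  obtain ⟨k, hk⟩ := IsDiscreteValuationRing.ideal_eq_span_pow_irreducible hne hϖ
  have hmem : (p : O) ^ k ∈ Ideal.span {r} := by
    rw [hk, ← Ideal.span_singleton_pow, ← hϖ.maximalIdeal_eq]
    exact Ideal.pow_mem_pow hpO k
  obtain ⟨d, hd⟩ := Ideal.mem_span_singleton'.1 hmem
  have hz : r • (x - y) = 0 := by
    have : r • x = r • y := hxy
    rw [smul_sub, this, sub_self]
  have hz' : (p : O) ^ k • (x - y) = 0 := by rw [← hd, mul_smul, hz, smul_zero]
  have h0 : x - y = 0 := by
    refine Subtype.ext (funext fun n => ?_)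
    have h1 := tateEigen_pow_smul (x - y).2 n k
    have h2 : ((x - y : tateEigen O p T a) : ℕ → O ⊗[ℤ] J) (n + k) =
        ((x - y : tateEigen O p T a) : ℕ → O ⊗[ℤ] J) (n + k) := rfl
    have h3 := congrArg (fun z : tateEigen O p T a => (z : ℕ → O ⊗[ℤ] J) (n + k)) hz'
    simp only [Submodule.coe_smul, Pi.smul_apply, Submodule.coe_zero, Pi.zero_apply] at h3
    rw [h3] at h1
    exact h1.symm
  exact sub_eq_zero.1 h0

/-- The Tate eigenmodule is `𝔪`-adically separated. -/
lemma tateEigen_isHausdorff (hp0 : p ≠ 0) :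
    IsHausdorff (maximalIdeal O) (tateEigen O p T a) := by
  rw [isHausdorff_iff]
  intro x hx
  obtain ⟨e, he⟩ := exists_span_natCast_eq_pow O hp0
  refine Subtype.ext (funext fun n => ?_)
  have h1 := SModEq.zero.1 (hx (e * n))
  rw [pow_mul, ← he, Ideal.span_singleton_pow, Submodule.ideal_span_singleton_smul,
    Submodule.mem_smul_pointwise_iff_exists] at h1
  obtain ⟨y, -, hy⟩ := h1
  have : (x : ℕ → O ⊗[ℤ] J) = (p : O) ^ n • (y : ℕ → O ⊗[ℤ] J) := by
    rw [← hy]; rfl
  exact apply_eq_zero_of_eq_pow_smul y.2 this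

/-- The Tate eigenmodule is finitely generated if `J[p]` is finite. -/
lemma tateEigen_finite [IsAdicComplete (maximalIdeal O) O] (hp0 : p ≠ 0)
    (hpO : (p : O) ∈ maximalIdeal O) (hJ : Finite (torsJ J p)) :
    Module.Finite O (tateEigen O p T a) := by
  classical
  -- evaluation at level one
  let ev : tateEigen O p T a →ₗ[O] O ⊗[ℤ] J :=
    (LinearMap.proj 1).comp (tateEigen O p T a).subtype
  let incl : O ⊗[ℤ] (torsJ J p) →ₗ[O] O ⊗[ℤ] J := (torsJ J p).subtype.baseChange O
  have hle : LinearMap.range ev ≤ LinearMap.range incl := by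
    rintro _ ⟨x, rfl⟩
    have h1 : (p : O) • ev x = 0 := by
      show (p : O) • (x : ℕ → O ⊗[ℤ] J) 1 = 0
      rw [x.2.2.1 0, x.2.1]
    obtain ⟨v, hv⟩ := exists_of_smul_eq_zero O J p _ h1
    exact ⟨v, by rw [← hv]; exact congrFun (LinearMap.baseChange_eq_ltensor _) v⟩
  have : Module.Finite ℤ (torsJ J p) := Module.Finite.of_finite
  have hfg : (LinearMap.range ev).FG := by
    have h1 : ((LinearMap.range ev).comap incl).FG := IsNoetherian.noetherian _
    have h2 := h1.map incl
    rwa [Submodule.map_comap_eq, inf_eq_right.2 hle] at h2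
  obtain ⟨n, s, hs⟩ := Submodule.fg_iff_exists_fin_generating_family.1 hfg
  have hs' : ∀ j, s j ∈ LinearMap.range ev := fun j => by
    rw [← hs]; exact Submodule.subset_span ⟨j, rfl⟩
  choose y hy using hs'
  let f : (Fin n → O) →ₗ[O] tateEigen O p T a := Fintype.linearCombination O y
  have hsurj : Function.Surjective
      (((maximalIdeal O) • (⊤ : Submodule O (tateEigen O p T a))).mkQ ∘ₗ f) := by
    intro q
    obtain ⟨x, rfl⟩ := Submodule.mkQ_surjective _ q
    have hx : ev x ∈ Submodule.span O (Set.range s) := by rw [hs]; exact ⟨x, rfl⟩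
    obtain ⟨c, hc⟩ := (Submodule.mem_span_range_iff_exists_fun O).1 hx
    refine ⟨c, ?_⟩
    rw [LinearMap.comp_apply, Submodule.mkQ_apply, Submodule.mkQ_apply, Submodule.Quotient.eq]
    have hev : ev (f c - x) = 0 := by
      rw [map_sub, Fintype.linearCombination_apply, map_sum]
      simp only [map_smul, hy, hc, sub_self]
    obtain ⟨z, hz, hxz⟩ := exists_eq_pow_smul_of_apply_eq_zero 1 (f c - x).2 hev
    have : f c - x = (p : O) • (⟨z, hz⟩ : tateEigen O p T a) := by
      refine Subtype.ext ?_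
      rw [hxz, pow_one]
      rfl
    rw [this]
    exact Submodule.smul_mem_smul hpO Submodule.mem_top
  haveI := P2MW.S_IsAdicComplete_of_module_finite.M4cP1X1.isPrecomplete_pi
    (maximalIdeal O) (Fin n)
  haveI := tateEigen_isHausdorff (O := O) (T := T) (a := a) hp0
  exact Module.Finite.of_surjective f (surjective_of_mkQ_comp_surjective hsurj)

/-- The Tate eigenmodule is free if `J[p]` is finite. -/
lemma tateEigen_free [IsAdicComplete (maximalIdeal O) O] (hp0 : p ≠ 0)
    (hpO : (p : O) ∈ maximalIdeal O) (hJ : Finite (torsJ J p)) :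
    Module.Free O (tateEigen O p T a) := by
  haveI := tateEigen_finite (T := T) (a := a) hp0 hpO hJ
  haveI := tateEigen_isTorsionFree (T := T) (a := a) hpO
  exact Module.free_of_finite_type_torsion_free'

end Structure

section Occurrence

variable {O : Type*} [CommRing O] [IsDomain O] [IsDiscreteValuationRing O] [CharZero O]
variable {J : Type*} [AddCommGroup J] {p : ℕ} {ι : Type*} {T : ι → J →+ J} {a : ι → O}

/-- If the eigensystem `a` occurs in `O ⊗ J[pⁿ⁺¹]` with exact order `pⁿ⁺¹` for every `n`, and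
`J[p]` is finite, the Tate eigenmodule is nonzero. -/
lemma tateEigen_nontrivial [Finite (ResidueField O)] (hp0 : p ≠ 0) (hJ : Finite (torsJ J p))
    (hocc : ∀ n : ℕ, ∃ w : O ⊗[ℤ] J, (p : O) ^ (n + 1) • w = 0 ∧ (p : O) ^ n • w ≠ 0 ∧
      ∀ i, bcH O (T i) w = a i • w) :
    Nontrivial (tateEigen O p T a) := by
  let X : ℕ → Set (O ⊗[ℤ] J) := fun n =>
    {w | (p : O) ^ (n + 1) • w = 0 ∧ (p : O) ^ n • w ≠ 0 ∧ ∀ i, bcH O (T i) w = a i • w}
  have hfin : ∀ n, (X n).Finite := by
    intro n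
    haveI := finite_quotient_span_natCast_pow O hp0 (n + 1)
    refine (finite_torsion_W O J (p ^ (n + 1)) (finite_torsJ_pow J p hJ (n + 1))).subset ?_
    rintro w ⟨hw, -, -⟩
    show ((p ^ (n + 1) : ℕ) : O) • w = 0
    rw [Nat.cast_pow]
    exact hw
  have hmap : ∀ n, ∀ w ∈ X (n + 1), (p : O) • w ∈ X n := by
    rintro n w ⟨h1, h2, h3⟩
    refine ⟨?_, ?_, fun i => ?_⟩
    · rw [← mul_smul, ← pow_succ]; exact h1
    · rw [← mul_smul, ← pow_succ]; exact h2
    · rw [map_smul, h3, smul_comm]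
  obtain ⟨w, hwX, hw⟩ := exists_compatible_seq_h349 X (fun w => (p : O) • w) hfin hocc hmap
  let x : ℕ → O ⊗[ℤ] J := fun n => Nat.casesOn n 0 w
  have hx0 : x 0 = 0 := rfl
  have hxs : ∀ n, x (n + 1) = w n := fun n => rfl
  have hx : x ∈ tateEigen O p T a := by
    refine ⟨hx0, fun n => ?_, fun n i => ?_⟩
    · rw [hxs]
      cases n with
      | zero =>
        rw [hx0]
        have := (hwX 0).1
        rwa [zero_add, pow_one] at this
      | succ n => rw [hxs]; exact hw n
    · cases n with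
      | zero => rw [hx0]; simp
      | succ n => rw [hxs]; exact (hwX n).2.2 i
  refine ⟨⟨⟨x, hx⟩, 0, fun h => ?_⟩⟩
  have h1 : x 1 = 0 := congrFun (congrArg Subtype.val h) 1
  have h2 := (hwX 0).2.1
  rw [pow_zero, one_smul] at h2
  exact h2 (by rw [← hxs 0]; exact h1)

end Occurrence

section Relations

variable {O : Type*} [CommRing O] [IsDomain O] [CharZero O]
variable {J : Type*} [AddCommGroup J] {p : ℕ} {ι : Type*} {T : ι → J →+ J} {a : ι → O}
variable {G : Type*} [Group G] [DistribMulAction G J]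

/-- An additive endomorphism of `J` killing `J[pⁿ]` kills the `n`-th components of the Tate
eigenmodule. -/
lemma tateEigen_bcH_apply_eq_zero (R : J →+ J) (n : ℕ) (hR : ∀ x : J, p ^ n • x = 0 → R x = 0)
    {x : ℕ → O ⊗[ℤ] J} (hx : x ∈ tateEigen O p T a) : bcH O R (x n) = 0 := by
  refine bcH_eq_zero_of_torsion O R (p ^ n) hR _ ?_
  rw [Nat.cast_pow]
  exact tateEigen_pow_smul_self hx n

/-- Elements of `G` fixing all `p`-power torsion of `J` act trivially. -/
lemma tateRho_eq_one (hTG : ∀ i (g : G) x, T i (g • x) = g • T i x) (g : G)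
    (hg : ∀ x : J, (∃ n : ℕ, p ^ n • x = 0) → g • x = x) : tateRho O p a hTG g = 1 := by
  refine LinearMap.ext fun v => Subtype.ext (funext fun n => ?_)
  rw [tateRho_apply]
  have := tateEigen_bcH_apply_eq_zero (O := O) (T := T) (a := a) (gactH g - AddMonoidHom.id J) n
    (fun x hx => by
      rw [AddMonoidHom.sub_apply, sub_eq_zero]
      exact hg x ⟨n, hx⟩) v.2
  rw [bcH_sub, bcH_id, sub_eq_zero] at this
  exact this

/-- Elements of `G` fixing `J[pⁿ]` pointwise act trivially modulo `𝔪ⁿ`. -/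
lemma tateRho_sub_mem [IsLocalRing O] (hpO : (p : O) ∈ maximalIdeal O)
    (hTG : ∀ i (g : G) x, T i (g • x) = g • T i x) (n : ℕ) (g : G)
    (hg : ∀ x : J, p ^ n • x = 0 → g • x = x) (v : tateEigen O p T a) :
    tateRho O p a hTG g v - v ∈
      (maximalIdeal O ^ n) • (⊤ : Submodule O (tateEigen O p T a)) := by
  have h0 : ((tateRho O p a hTG g v - v : tateEigen O p T a) : ℕ → O ⊗[ℤ] J) n = 0 := by
    have := tateEigen_bcH_apply_eq_zero (O := O) (T := T) (a := a)
      (gactH g - AddMonoidHom.id J) n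
      (fun x hx => by
        rw [AddMonoidHom.sub_apply, sub_eq_zero]
        exact hg x hx) v.2
    rw [bcH_sub, bcH_id] at this
    exact this
  obtain ⟨z, hz, hxz⟩ := exists_eq_pow_smul_of_apply_eq_zero n (tateRho O p a hTG g v - v).2 h0
  have : tateRho O p a hTG g v - v = (p : O) ^ n • (⟨z, hz⟩ : tateEigen O p T a) :=
    Subtype.ext hxz
  rw [this]
  exact Submodule.smul_mem_smul (Ideal.pow_mem_pow hpO n) Submodule.mem_top

/-- A quadratic relation `g² - T_i g + ℓ = 0` on the `p`-power torsion of `J` gives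
`ρ(g)² - a_i ρ(g) + ℓ = 0` on the Tate eigenmodule. -/
lemma tateRho_quadratic (hTG : ∀ i (g : G) x, T i (g • x) = g • T i x) (g : G) (i : ι) (ℓ : ℕ)
    (hg : ∀ x : J, (∃ n : ℕ, p ^ n • x = 0) → g • g • x - T i (g • x) + ℓ • x = 0) :
    tateRho O p a hTG g * tateRho O p a hTG g - a i • tateRho O p a hTG g
      + (ℓ : O) • (1 : Module.End O (tateEigen O p T a)) = 0 := by
  refine LinearMap.ext fun v => Subtype.ext (funext fun n => ?_)
  have hR := tateEigen_bcH_apply_eq_zero (O := O) (T := T) (a := a)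
    ((gactH g).comp (gactH g) - (T i).comp (gactH g) + ℓ • AddMonoidHom.id J) n
    (fun x hx => by
      simpa using hg x ⟨n, hx⟩) v.2
  rw [bcH_add, bcH_sub, bcH_comp, bcH_comp, bcH_natCast_smul, bcH_id] at hR
  have heig := (tateRho O p a hTG g v).2.2.2 n i
  rw [tateRho_apply] at heig
  rw [heig] at hR
  simpa using hR

end Relations

end Fermat.Agent.S30.H349
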