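import Mathlib

/-!
# S30, p-adic module layer (helper349): abstract Tate-module construction, part 1

`J` is an abelian group (think `J₀(N)(ℚ̄)`), `O` a coefficient ring (think a complete DVR of
characteristic `0` over `p`).  We study `W = O ⊗[ℤ] J` and its `pⁿ`-torsion.

Main results of this file:
* `bcH_eq_zero_of_torsion` : an additive endomorphism `R` of `J` that kills `J[pⁿ]` induces an
  endomorphism of `W` killing `W[pⁿ]` (uses flatness of `O` over `ℤ`).
* `finite_torsion_W` : `W[pⁿ]` is finite if `J[p]` is finite and `O ⧸ (pⁿ)` is finite.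
* `exists_compatible_seq_h349` : König's lemma for an inverse system of finite nonempty sets.
-/

set_option autoImplicit false

noncomputable section

namespace Fermat.Agent.S30.H349

open TensorProduct

section BaseChange

variable (O : Type*) [CommRing O] {J : Type*} [AddCommGroup J]

/-- Base change to `O` of an additive endomorphism of `J`. -/
def bcH (f : J →+ J) : (O ⊗[ℤ] J) →ₗ[O] (O ⊗[ℤ] J) := f.toIntLinearMap.baseChange O

@[simp] lemma bcH_tmul (f : J →+ J) (o : O) (x : J) : bcH O f (o ⊗ₜ[ℤ] x) = o ⊗ₜ[ℤ] f x := rfl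

lemma bcH_comp (f g : J →+ J) (w : O ⊗[ℤ] J) : bcH O (f.comp g) w = bcH O f (bcH O g w) := by
  induction w using TensorProduct.induction_on with
  | zero => simp
  | tmul o x => simp
  | add a b ha hb => simp [ha, hb]

lemma bcH_id (w : O ⊗[ℤ] J) : bcH O (AddMonoidHom.id J) w = w := by
  induction w using TensorProduct.induction_on with
  | zero => simp
  | tmul o x => simp
  | add a b ha hb => simp [ha, hb]

lemma bcH_add (f g : J →+ J) (w : O ⊗[ℤ] J) : bcH O (f + g) w = bcH O f w + bcH O g w := by
  induction w using TensorProduct.induction_on with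
  | zero => simp
  | tmul o x => simp [TensorProduct.tmul_add]
  | add a b ha hb => simp only [map_add, ha, hb]; abel

lemma bcH_sub (f g : J →+ J) (w : O ⊗[ℤ] J) : bcH O (f - g) w = bcH O f w - bcH O g w := by
  induction w using TensorProduct.induction_on with
  | zero => simp
  | tmul o x => simp [TensorProduct.tmul_sub]
  | add a b ha hb => simp only [map_add, ha, hb]; abel

lemma bcH_natCast_smul (n : ℕ) (f : J →+ J) (w : O ⊗[ℤ] J) :
    bcH O (n • f) w = (n : O) • bcH O f w := by
  induction w using TensorProduct.induction_on with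
  | zero => simp
  | tmul o x =>
    simp only [bcH_tmul, AddMonoidHom.smul_apply, TensorProduct.tmul_smul]
    rw [Nat.cast_smul_eq_nsmul]
  | add a b ha hb => simp only [map_add, ha, hb, smul_add]

end BaseChange

section Torsion

variable (O : Type*) [CommRing O] (J : Type*) [AddCommGroup J]

/-- `J[m]` as a `ℤ`-submodule. -/
abbrev torsJ (m : ℕ) : Submodule ℤ J := Submodule.torsionBy ℤ J (m : ℤ)

variable {J} in
lemma mem_torsJ {m : ℕ} {x : J} : x ∈ torsJ J m ↔ m • x = 0 := by
  rw [Submodule.mem_torsionBy_iff, natCast_zsmul]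

lemma natCast_smul_eq_h349 (m : ℕ) (w : O ⊗[ℤ] J) : (m : O) • w = (m : ℤ) • w := by
  rw [natCast_zsmul, Nat.cast_smul_eq_nsmul]

lemma natCast_smul_tmul_h349 (m : ℕ) (o : O) (x : J) :
    (m : O) • (o ⊗ₜ[ℤ] x) = o ⊗ₜ[ℤ] (m • x) := by
  rw [natCast_smul_eq_h349, ← TensorProduct.tmul_smul, natCast_zsmul]

variable [Module.Flat ℤ O]

/-- Flatness: `W[m]` is the image of `O ⊗ J[m]`. -/
lemma exists_of_smul_eq_zero (m : ℕ) (w : O ⊗[ℤ] J) (hw : (m : O) • w = 0) :
    ∃ v : O ⊗[ℤ] (torsJ J m), (torsJ J m).subtype.lTensor O v = w := by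
  have hex : Function.Exact (torsJ J m).subtype (DistribSMul.toLinearMap ℤ J (m : ℤ)) :=
    LinearMap.exact_subtype_ker_map _
  have hex' := Module.Flat.lTensor_exact O hex
  have hg : ∀ w : O ⊗[ℤ] J,
      (DistribSMul.toLinearMap ℤ J (m : ℤ)).lTensor O w = (m : O) • w := by
    intro w
    induction w using TensorProduct.induction_on with
    | zero => simp
    | tmul o x =>
      rw [LinearMap.lTensor_tmul, natCast_smul_tmul_h349]
      congr 1
      exact natCast_zsmul x m
    | add a b ha hb => rw [map_add, ha, hb, smul_add]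
  have := (hex' w).1 (by rw [hg, hw])
  exact this

variable {J}

/-- An additive endomorphism of `J` killing `J[m]` kills `W[m]` after base change. -/
lemma bcH_eq_zero_of_torsion (R : J →+ J) (m : ℕ) (hR : ∀ x : J, m • x = 0 → R x = 0)
    (w : O ⊗[ℤ] J) (hw : (m : O) • w = 0) : bcH O R w = 0 := by
  obtain ⟨v, rfl⟩ := exists_of_smul_eq_zero O J m w hw
  clear hw
  induction v using TensorProduct.induction_on with
  | zero => simp
  | tmul o x =>
    rw [LinearMap.lTensor_tmul, Submodule.subtype_apply, bcH_tmul, hR _ (mem_torsJ.1 x.2),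
      TensorProduct.tmul_zero]
  | add a b ha hb => rw [map_add, map_add, ha, hb, add_zero]

end Torsion

section Finiteness

/-- A finitely generated module killed by an ideal of finite index is finite. -/
lemma finite_of_module_finite_of_smul_eq_zero {R M : Type*} [CommRing R] [AddCommGroup M]
    [Module R M] [Module.Finite R M] (I : Ideal R) [Finite (R ⧸ I)]
    (h : ∀ r ∈ I, ∀ m : M, r • m = 0) : Finite M := by
  obtain ⟨n, f, hf⟩ := Module.Finite.exists_fin' R M
  let φ : (Fin n → R ⧸ I) → M := fun q => f (fun i => (q i).out)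
  refine Finite.of_surjective φ fun y => ?_
  obtain ⟨c, rfl⟩ := hf y
  refine ⟨fun i => Ideal.Quotient.mk I (c i), ?_⟩
  show f _ = f c
  rw [← sub_eq_zero, ← map_sub, LinearMap.pi_apply_eq_sum_univ]
  refine Finset.sum_eq_zero fun i _ => h _ ?_ _
  rw [Pi.sub_apply, ← Ideal.Quotient.eq]
  exact Quotient.out_eq _

variable (O : Type*) [CommRing O] (J : Type*) [AddCommGroup J]

lemma finite_torsJ_pow (p : ℕ) (hJ : Finite (torsJ J p)) (n : ℕ) : Finite (torsJ J (p ^ n)) := by
  induction n with
  | zero =>
    have : torsJ J (p ^ 0) = ⊥ := by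
      rw [eq_bot_iff]
      intro x hx
      rw [mem_torsJ, pow_zero, one_smul] at hx
      simpa using hx
    rw [this]
    infer_instance
  | succ n ih =>
    -- the map `x ↦ pⁿ • x` from `J[pⁿ⁺¹]` to `J[p]`
    let φ : torsJ J (p ^ (n + 1)) →+ torsJ J p :=
      { toFun := fun x => ⟨p ^ n • (x : J), by
          rw [mem_torsJ, ← mul_smul, ← pow_succ']
          exact mem_torsJ.1 x.2⟩
        map_zero' := by ext; simp
        map_add' := fun x y => by ext; simp [smul_add] }
    rw [φ.finite_iff_finite_ker_range]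
    refine ⟨?_, Finite.of_injective (fun x : φ.range => (x : torsJ J p)) Subtype.val_injective⟩
    -- the kernel injects into `J[pⁿ]`
    let ψ : φ.ker → torsJ J (p ^ n) := fun x => ⟨((x : torsJ J (p ^ (n + 1))) : J), by
      have hx := x.2
      rw [AddMonoidHom.mem_ker] at hx
      have := congrArg Subtype.val hx
      exact mem_torsJ.2 this⟩
    refine Finite.of_injective ψ fun x y hxy => ?_
    have := congrArg Subtype.val hxy
    exact Subtype.ext (Subtype.ext this)

variable [Module.Flat ℤ O]

/-- `W[m]` is finite if `J[m]` is finite and `O ⧸ (m)` is finite. -/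
lemma finite_torsion_W (m : ℕ) [Finite (O ⧸ Ideal.span {(m : O)})] (hJ : Finite (torsJ J m)) :
    {w : O ⊗[ℤ] J | (m : O) • w = 0}.Finite := by
  have : Module.Finite ℤ (torsJ J m) := Module.Finite.of_finite
  have : Module.Finite O (O ⊗[ℤ] (torsJ J m)) := inferInstance
  have : Finite (O ⊗[ℤ] (torsJ J m)) := by
    refine finite_of_module_finite_of_smul_eq_zero (Ideal.span {(m : O)}) fun r hr v => ?_
    obtain ⟨c, rfl⟩ := Ideal.mem_span_singleton'.1 hr
    rw [mul_smul]
    suffices h : (m : O) • v = 0 by rw [h, smul_zero]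
    induction v using TensorProduct.induction_on with
    | zero => simp
    | tmul o x =>
      rw [natCast_smul_tmul_h349]
      have : m • x = 0 := Subtype.ext (by simpa using mem_torsJ.1 x.2)
      rw [this, TensorProduct.tmul_zero]
    | add a b ha hb => rw [smul_add, ha, hb, add_zero]
  refine (Set.finite_range ((torsJ J m).subtype.lTensor O)).subset fun w hw => ?_
  exact exists_of_smul_eq_zero O J m w hw

end Finiteness

section Koenig

/-- A decreasing sequence of nonempty finite sets has nonempty intersection. -/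
lemma nonempty_iInter_of_antitone_finite_h349 {α : Type*} (A : ℕ → Set α) (hanti : Antitone A)
    (hfin : (A 0).Finite) (hne : ∀ k, (A k).Nonempty) : (⋂ k, A k).Nonempty := by
  by_contra hcon
  rw [Set.not_nonempty_iff_eq_empty] at hcon
  have h1 : ∀ a ∈ A 0, ∃ k, a ∉ A k := by
    intro a _
    by_contra h
    push Not at h
    have : a ∈ ⋂ k, A k := Set.mem_iInter.2 h
    rw [hcon] at this
    exact this
  choose! k hk using h1
  obtain ⟨a, ha⟩ := hne (hfin.toFinset.sup k)
  have ha0 : a ∈ A 0 := hanti (Nat.zero_le _) ha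
  exact hk a ha0 (hanti (Finset.le_sup (hfin.mem_toFinset.2 ha0)) ha)

/-- König's lemma: an inverse system `… → X 2 → X 1 → X 0` (all maps induced by `f`) of nonempty
finite sets has a compatible sequence. -/
lemma exists_compatible_seq_h349 {α : Type*} (X : ℕ → Set α) (f : α → α)
    (hfin : ∀ n, (X n).Finite) (hne : ∀ n, (X n).Nonempty)
    (hmap : ∀ n, ∀ w ∈ X (n + 1), f w ∈ X n) :
    ∃ w : ℕ → α, (∀ n, w n ∈ X n) ∧ ∀ n, f (w (n + 1)) = w n := by
  set A : ℕ → ℕ → Set α := fun n k => f^[k] '' X (n + k) with hA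
  have hA0 : ∀ n, A n 0 = X n := fun n => by simp [hA]
  have hAanti : ∀ n, Antitone (A n) := by
    intro n
    refine antitone_nat_of_succ_le fun k => ?_
    rintro _ ⟨z, hz, rfl⟩
    refine ⟨f z, hmap _ z hz, ?_⟩
    rw [Function.iterate_succ_apply]
  have hAne : ∀ n k, (A n k).Nonempty := fun n k => (hne _).image _
  set Y : ℕ → Set α := fun n => ⋂ k, A n k with hY
  have hYX : ∀ n, Y n ⊆ X n := fun n y hy => by
    have := Set.mem_iInter.1 hy 0
    rwa [hA0] at this
  have hYne : ∀ n, (Y n).Nonempty := fun n =>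
    nonempty_iInter_of_antitone_finite_h349 (A n) (hAanti n) (by rw [hA0]; exact hfin n) (hAne n)
  have hYlift : ∀ n, ∀ y ∈ Y n, ∃ u ∈ Y (n + 1), f u = y := by
    intro n y hy
    have hB := nonempty_iInter_of_antitone_finite_h349 (fun k => A (n + 1) k ∩ f ⁻¹' {y})
      (fun a b hab => Set.inter_subset_inter_left _ (hAanti (n + 1) hab))
      (((by rw [hA0]; exact hfin (n + 1)) : (A (n + 1) 0).Finite).subset Set.inter_subset_left)
      (fun k => by
        obtain ⟨z, hz, hzy⟩ := Set.mem_iInter.1 hy (k + 1)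
        refine ⟨f^[k] z, ⟨z, ?_, rfl⟩, ?_⟩
        · have : n + 1 + k = n + (k + 1) := by omega
          rw [this]
          exact hz
        · rw [Set.mem_preimage, Set.mem_singleton_iff, ← hzy, Function.iterate_succ_apply'])
    obtain ⟨u, hu⟩ := hB
    rw [Set.mem_iInter] at hu
    exact ⟨u, Set.mem_iInter.2 fun k => (hu k).1, (hu 0).2⟩
  let s : (n : ℕ) → {y // y ∈ Y n} := fun n =>
    Nat.rec (motive := fun n => {y // y ∈ Y n}) ⟨(hYne 0).some, (hYne 0).some_mem⟩
      (fun n y => ⟨(hYlift n y.1 y.2).choose, (hYlift n y.1 y.2).choose_spec.1⟩) n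
  refine ⟨fun n => (s n).1, fun n => hYX n (s n).2, fun n => ?_⟩
  exact (hYlift n (s n).1 (s n).2).choose_spec.2

end Koenig

end Fermat.Agent.S30.H349
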